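/-
Program A (S42 / S29), AJ-core skeleton leaf 10 `LeafFIN` (helper53): `Hom(Γ₀(N), ℤ/p)` is finite.
One-line adapter of helper4's landed `S42/H4/FinChar.lean` to the verbatim leaf.
-/
import Mathlib
import Fermat.Agent.S42.H96.Skeleton
import Fermat.Agent.S42.H4.FinChar

set_option autoImplicit false

open Fermat.Agent.S42.H96

namespace Fermat.Agent.S42.H53

/-- **Leaf 10 of the AJ-core skeleton** (`Fermat.Agent.S42.H96.LeafFIN`), every modulus `p ≠ 0`. -/
theorem leafFIN (N p : ℕ) [NeZero N] (hp : p ≠ 0) : LeafFIN N p := by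
  have : NeZero p := ⟨hp⟩
  exact Fermat.Agent.S42.H4.finite_addHom N p

end Fermat.Agent.S42.H53
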