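/-
Program A (S42 / S29), AJ-core skeleton leaf 9 `LeafPINV` (helper53):
the algebraic property `PC N p` ("`p` divides the order at every place of `M_ℂ` over a finite
value of `j`") is invariant under the coefficientwise action of the field automorphisms of `ℂ`.

Proof: the Prelude's `SemilinearAut.ord_smul` transports orders along the semilinear
automorphism, and `j = jC N (oneDiv N)` has rational `q`-expansion, hence is fixed.
-/
import Mathlib
import Fermat.Agent.S42.H96.Skeleton

set_option autoImplicit false

open AlgebraicCurve ModularCurve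
open Fermat.Agent.S42.H96
open scoped Pointwise

namespace Fermat.Agent.S42.H53

/-- The generators `j_d` of `M_ℂ` have rational `q`-expansions, hence are fixed by the
coefficientwise action of `Aut(ℂ)`. -/
theorem sigM_jC (N : ℕ) (σ : ℂ ≃ₐ[ℚ] ℂ) (d : N.divisors) : sigM N σ (jC N d) = jC N d := by
  apply Subtype.ext
  rw [sigM, coe_arithmeticGalois_smul]
  exact coeffMap_coeffEmb σ _

/-- Orders at a place of `M_ℂ` after applying `σ ∈ Aut(ℂ)` are orders at the transported
place. -/
theorem ord_sigM (N : ℕ) (σ : ℂ ≃ₐ[ℚ] ℂ) (v : Place ℂ (MC N)) (g : MC N) :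
    v.ord (sigM N σ g)
      = ((arithmeticGalois (modularFunctionFieldFull N) σ)⁻¹ • v).ord g := by
  have h := SemilinearAut.ord_smul (arithmeticGalois (modularFunctionFieldFull N) σ)
    ((arithmeticGalois (modularFunctionFieldFull N) σ)⁻¹ • v) g
  rw [smul_inv_smul] at h
  exact h

/-- **Leaf 9 of the AJ-core skeleton** (`Fermat.Agent.S42.H96.LeafPINV`), for every modulus. -/
theorem leafPINV (N p : ℕ) [NeZero N] : LeafPINV N p := by
  intro σ g hg v hv
  rw [ord_sigM]
  apply hg
  rw [SemilinearAut.smul_toValuationSubring,
    ValuationSubring.mem_pointwise_smul_iff_inv_smul_mem, inv_inv]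
  show sigM N σ (jC N _) ∈ v.toValuationSubring
  rw [sigM_jC]
  exact hv

end Fermat.Agent.S42.H53
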